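import Fermat.Agent.LT.A2.Kernel
import Fermat.Agent.LT.T6.Spec

/-!
# Row LT, tower A2, leaf A2.05 `HasseNormC` -- the INTERFACE with tower CFT (helper771)

OFF-MAIN.  Complete proof, nothing assumed.

    hasseNorm_of_T6 : T6.HasseNormC → A2.HasseNormC

`T6.HasseNormC` (helper22, `LT/T6/Spec.lean`, VERBATIM) is the Hasse norm theorem for a cyclic
extension `M / L` of number fields of prime degree, in local tensor form.
`A2.HasseNormC` (helper950, `LT/A2/Kernel.lean`, VERBATIM) is the same theorem for the quadratic
extension `K[X]/(X² - tX + n)` in torus coordinates.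

Route: `M = AdjoinRoot (X² - tX + n)`, basis `1, ω` over `K`; for every commutative `K`-algebra
`A` the elements `1 ⊗ 1, 1 ⊗ ω` are a basis of `A ⊗_K M` and the norm of `x ⊗ 1 + y ⊗ ω` is
`x² + t x y + n y²` (the determinant of the matrix `torMat t n x y` of the multiplication).
The components of an adelic torus element with determinant `a ∈ K` give the local solutions.
-/

set_option autoImplicit false

open IsDedekindDomain NumberField Polynomial
open scoped TensorProduct

noncomputable section

namespace Fermat.Agent.LT.A2.H771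

open Fermat.Agent.LT.H556

/-! ## The norm of `α + β w` for a basis `1, w` with `w² = t w - n` -/

theorem norm_quadBasis {A S : Type*} [CommRing A] [CommRing S] [Algebra A S]
    (b : Module.Basis (Fin 2) A S) (h0 : b 0 = 1) (t n : A)
    (hw : b 1 * b 1 = t • b 1 - n • (1 : S)) (α β : A) :
    Algebra.norm A (α • (1 : S) + β • b 1) = α ^ 2 + t * α * β + n * β ^ 2 := by
  have e0 : (α • (1 : S) + β • b 1) * b 0 = α • b 0 + β • b 1 := by
    rw [h0, mul_one]
  have e1 : (α • (1 : S) + β • b 1) * b 1 = (-(n * β)) • b 0 + (α + t * β) • b 1 := by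
    rw [add_mul, smul_mul_assoc, one_mul, smul_mul_assoc, hw, h0]
    module
  rw [Algebra.norm_eq_matrix_det b, Matrix.det_fin_two]
  simp only [Algebra.leftMulMatrix_eq_repr_mul, e0, e1, map_add, map_smul,
    Module.Basis.repr_self, Finsupp.coe_add, Finsupp.coe_smul, Pi.add_apply, Pi.smul_apply,
    Finsupp.single_apply, smul_eq_mul]
  simp
  ring

/-! ## The quadratic field `K[X]/(X² - tX + n)` -/

section Quad

variable {K : Type} [Field K] (t n : K)

/-- `X² - tX + n`. -/
def qpoly : K[X] := X ^ 2 - C t * X + C n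

theorem qpoly_natDegree : (qpoly t n).natDegree = 2 := by
  unfold qpoly; compute_degree!

theorem qpoly_monic : (qpoly t n).Monic := by
  unfold qpoly; monicity!

theorem qpoly_irreducible (h : ∀ x : K, x ^ 2 - t * x + n ≠ 0) : Irreducible (qpoly t n) := by
  apply Polynomial.irreducible_of_degree_le_three_of_not_isRoot
  · rw [qpoly_natDegree]; decide
  · intro x hx
    apply h x
    simpa [qpoly, Polynomial.IsRoot] using hx

/-- The basis `1, ω` of `K[X]/(X² - tX + n)`. -/
def qbasis : Module.Basis (Fin 2) K (AdjoinRoot (qpoly t n)) :=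
  (AdjoinRoot.powerBasis' (qpoly_monic t n)).basis.reindex
    (finCongr ((AdjoinRoot.powerBasis'_dim (qpoly_monic t n)).trans (qpoly_natDegree t n)))

theorem qbasis_zero : qbasis t n 0 = 1 := by
  simp [qbasis]

theorem qbasis_one : qbasis t n 1 = AdjoinRoot.root (qpoly t n) := by
  simp [qbasis]

theorem root_mul_root :
    AdjoinRoot.root (qpoly t n) * AdjoinRoot.root (qpoly t n)
      = t • AdjoinRoot.root (qpoly t n) - n • (1 : AdjoinRoot (qpoly t n)) := by
  have h : AdjoinRoot.mk (qpoly t n) (X ^ 2 - C t * X + C n) = 0 :=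
    AdjoinRoot.mk_self (f := qpoly t n)
  simp only [map_add, map_sub, map_mul, map_pow, AdjoinRoot.mk_X, AdjoinRoot.mk_C] at h
  rw [Algebra.smul_def, Algebra.smul_def, mul_one, AdjoinRoot.algebraMap_eq]
  linear_combination h

end Quad

/-! ## The norm on `A ⊗_K K[X]/(X² - tX + n)` -/

section Tensor

variable {K : Type} [Field K] (t n : K) (A : Type) [CommRing A] [Algebra K A]

/-- The norm of `x ⊗ 1 + y ⊗ ω` is `x² + t x y + n y²`. -/
theorem norm_tensor (x y : A) :
    Algebra.norm A (S := A ⊗[K] AdjoinRoot (qpoly t n))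
        (x • (1 : A ⊗[K] AdjoinRoot (qpoly t n))
          + y • ((1 : A) ⊗ₜ[K] AdjoinRoot.root (qpoly t n)))
      = x ^ 2 + algebraMap K A t * x * y + algebraMap K A n * y ^ 2 := by
  have h0 : Algebra.TensorProduct.basis A (qbasis t n) 0 = 1 := by
    rw [Algebra.TensorProduct.basis_apply, qbasis_zero, Algebra.TensorProduct.one_def]
  have h1 : Algebra.TensorProduct.basis A (qbasis t n) 1
      = (1 : A) ⊗ₜ[K] AdjoinRoot.root (qpoly t n) := by
    rw [Algebra.TensorProduct.basis_apply, qbasis_one]
  have hw : Algebra.TensorProduct.basis A (qbasis t n) 1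
        * Algebra.TensorProduct.basis A (qbasis t n) 1
      = algebraMap K A t • Algebra.TensorProduct.basis A (qbasis t n) 1
        - algebraMap K A n • (1 : A ⊗[K] AdjoinRoot (qpoly t n)) := by
    rw [h1, Algebra.TensorProduct.tmul_mul_tmul, root_mul_root, mul_one, TensorProduct.tmul_sub,
      TensorProduct.tmul_smul, TensorProduct.tmul_smul, algebraMap_smul, algebraMap_smul,
      Algebra.TensorProduct.one_def]
  have := norm_quadBasis (Algebra.TensorProduct.basis A (qbasis t n)) h0
    (algebraMap K A t) (algebraMap K A n) hw x y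
  rw [h1] at this
  exact this

end Tensor

/-! ## The components of an adele -/

section Components

variable {K : Type} [Field K] [NumberField K]

/-- The component at the finite place `u`, as a ring homomorphism. -/
def finC (u : HeightOneSpectrum (𝓞 K)) : A0.Adl K →+* u.adicCompletion K :=
  (RestrictedProduct.evalRingHom _ u).comp
    (RingHom.snd (InfiniteAdeleRing K) (FiniteAdeleRing (𝓞 K) K))

/-- The component at the infinite place `u`, as a ring homomorphism. -/
def infC (u : InfinitePlace K) : A0.Adl K →+* u.Completion :=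
  (Pi.evalRingHom (fun v : InfinitePlace K => v.Completion) u).comp
    (RingHom.fst (InfiniteAdeleRing K) (FiniteAdeleRing (𝓞 K) K))

theorem finC_algebraMap (u : HeightOneSpectrum (𝓞 K)) (x : K) :
    finC u (algebraMap K (A0.Adl K) x) = algebraMap K (u.adicCompletion K) x := rfl

theorem infC_algebraMap (u : InfinitePlace K) (x : K) :
    infC u (algebraMap K (A0.Adl K) x) = algebraMap K u.Completion x := rfl

end Components

/-! ## The adapter -/

/-- **A2.05 (interface with tower CFT).**  The Hasse norm theorem of tower T6/CFT (cyclic of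
prime degree, local tensor form) gives the Hasse norm theorem of tower A2 (quadratic, torus
coordinates). -/
theorem hasseNorm_of_T6 (hT6 : Fermat.Agent.LT.T6.HasseNormC) :
    Fermat.Agent.LT.A2.HasseNormC := by
  intro K _ _ t n hirr a m hm hdet
  have : Fact (Irreducible (qpoly t n)) := ⟨qpoly_irreducible t n hirr⟩
  have : Module.Finite K (AdjoinRoot (qpoly t n)) :=
    Module.Finite.of_basis (qbasis t n)
  have : NumberField (AdjoinRoot (qpoly t n)) := NumberField.of_module_finite K _
  have hrank : Module.finrank K (AdjoinRoot (qpoly t n)) = 2 := by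
    rw [Module.finrank_eq_card_basis (qbasis t n)]; simp
  have : Algebra.IsQuadraticExtension K (AdjoinRoot (qpoly t n)) :=
    { toFree := Module.Free.of_basis (qbasis t n), finrank_eq_two' := hrank }
  obtain ⟨α, β, hmat⟩ := hm
  have hdet' : α ^ 2 + algebraMap K (A0.Adl K) t * α * β + algebraMap K (A0.Adl K) n * β ^ 2
      = algebraMap K (A0.Adl K) a := by
    rw [← hdet, Matrix.GeneralLinearGroup.val_det_apply, hmat, torMat, Matrix.det_fin_two_of]
    ring
  have ha : a ≠ 0 := by
    rintro rfl
    have hu : IsUnit (algebraMap K (A0.Adl K) 0) := by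
      rw [← hdet]; exact Units.isUnit _
    rw [map_zero] at hu
    have : Nontrivial (A0.Adl K) :=
      (NumberField.AdeleRing.algebraMap_injective (𝓞 K) K).nontrivial
    exact not_isUnit_zero hu
  obtain ⟨y, hy⟩ := hT6 K (AdjoinRoot (qpoly t n)) inferInstance (by rw [hrank]; exact Nat.prime_two)
    a ha
    (fun u => ⟨finC u α • (1 : u.adicCompletion K ⊗[K] AdjoinRoot (qpoly t n))
        + finC u β • ((1 : u.adicCompletion K) ⊗ₜ[K] AdjoinRoot.root (qpoly t n)), by
      rw [norm_tensor, ← finC_algebraMap u a, ← hdet']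
      simp only [map_add, map_mul, map_pow, finC_algebraMap]⟩)
    (fun u => ⟨infC u α • (1 : u.Completion ⊗[K] AdjoinRoot (qpoly t n))
        + infC u β • ((1 : u.Completion) ⊗ₜ[K] AdjoinRoot.root (qpoly t n)), by
      rw [norm_tensor, ← infC_algebraMap u a, ← hdet']
      simp only [map_add, map_mul, map_pow, infC_algebraMap]⟩)
  -- the rational torus element
  set α₀ : K := (qbasis t n).repr y 0 with hα₀
  set β₀ : K := (qbasis t n).repr y 1 with hβ₀
  have hy' : y = α₀ • (1 : AdjoinRoot (qpoly t n)) + β₀ • qbasis t n 1 := by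
    conv_lhs => rw [← (qbasis t n).sum_repr y]
    rw [Fin.sum_univ_two, qbasis_zero]
  have hw : qbasis t n 1 * qbasis t n 1
      = t • qbasis t n 1 - n • (1 : AdjoinRoot (qpoly t n)) := by
    rw [qbasis_one]; exact root_mul_root t n
  have hnorm : α₀ ^ 2 + t * α₀ * β₀ + n * β₀ ^ 2 = a := by
    rw [← hy, hy', norm_quadBasis (qbasis t n) (qbasis_zero t n) t n hw]
  have hdet0 : (torMat t n α₀ β₀).det ≠ 0 := by
    rw [torMat, Matrix.det_fin_two_of]
    intro h
    apply ha
    rw [← hnorm]
    linear_combination h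
  refine ⟨Matrix.GeneralLinearGroup.map (algebraMap K (A0.Adl K))
    (Matrix.GeneralLinearGroup.mkOfDetNeZero (torMat t n α₀ β₀) hdet0), ⟨α₀, β₀, ?_⟩, ?_⟩
  · ext i j
    fin_cases i <;> fin_cases j <;> simp [torMat, Matrix.GeneralLinearGroup.mkOfDetNeZero]
  · rw [Matrix.GeneralLinearGroup.val_det_apply]
    have : ((Matrix.GeneralLinearGroup.map (algebraMap K (A0.Adl K))
        (Matrix.GeneralLinearGroup.mkOfDetNeZero (torMat t n α₀ β₀) hdet0) : A0.G K) :
          Matrix (Fin 2) (Fin 2) (A0.Adl K))
        = (torMat t n α₀ β₀).map (algebraMap K (A0.Adl K)) := rfl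
    rw [this, ← RingHom.mapMatrix_apply, ← RingHom.map_det, torMat, Matrix.det_fin_two_of,
      ← hnorm]
    congr 1
    ring

end Fermat.Agent.LT.A2.H771

end
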